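/-
S25 support (helper9105), package SM2: sheaves of modules that are invertible in the Prelude
sense (`Scheme.Modules.IsInvertible`: Zariski-locally isomorphic to the unit) are
quasi-coherent.  Also: the unit sheaf of modules is quasi-coherent.
-/
import Mathlib
import Fermat.Prelude.Def_AlgebraicGeometry_RelativePicardFunctor

set_option autoImplicit false

universe u v₁ u₁

namespace Fermat.Agent.S25.SLib.AffineInv

open CategoryTheory CategoryTheory.Limits AlgebraicGeometry TopologicalSpace Opposite

section general

variable {C : Type u₁} [Category.{v₁} C] {J : GrothendieckTopology C} {R : Sheaf J RingCat.{u}}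
  [∀ X, HasSheafify (J.over X) AddCommGrpCat.{u}] [HasBinaryProducts C]
  [∀ X, (J.over X).WEqualsLocallyBijective AddCommGrpCat.{u}] [HasSheafify J AddCommGrpCat.{u}]
  [J.WEqualsLocallyBijective AddCommGrpCat.{u}]

/-- The unit sheaf of modules is free on one generator. -/
noncomputable def unitIsoFreePUnit :
    SheafOfModules.unit R ≅ SheafOfModules.free (R := R) PUnit.{u+1} :=
  (coproductUniqueIso (fun (_ : PUnit.{u+1}) ↦ SheafOfModules.unit R)).symm

theorem isQuasicoherent_unit : (SheafOfModules.unit R).IsQuasicoherent :=
  (SheafOfModules.isQuasicoherent R).prop_of_iso (unitIsoFreePUnit (R := R)).symm inferInstance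

end general

variable {X : Scheme.{u}}

/-- The restriction of `L` to the over-site of an open `U` is the unit as soon as the pullback
of `L` to the open subscheme `U` is. -/
noncomputable def overIsoUnit (L : X.Modules) (U : X.Opens)
    (e : (Scheme.Modules.pullback U.ι).obj L ≅ SheafOfModules.unit U.toScheme.ringCatSheaf) :
    SheafOfModules.over L U ≅ SheafOfModules.unit (X.ringCatSheaf.over U) :=
  (Scheme.Modules.overEquiv U).unitIso.app _ ≪≫
    (Scheme.Modules.overEquiv U).inverse.mapIso
      ((Scheme.Modules.overFunctorEquiv U).app L ≪≫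
        (Scheme.Modules.restrictFunctorIsoPullback U.ι).app L ≪≫ e) ≪≫
    TopologicalSpace.Opens.sheafOfModulesEquivOverInverseUnit _ _

/-- **Invertible sheaves (Prelude sense) are quasi-coherent.** -/
theorem isQuasicoherent_of_isInvertible {L : X.Modules} (hL : Scheme.Modules.IsInvertible L) :
    SheafOfModules.IsQuasicoherent.{u, u, u} L := by
  choose U hxU e using hL.1
  have : ∀ x : X, SheafOfModules.IsQuasicoherent.{u, u, u} (SheafOfModules.over L (U x)) :=
    fun x => (SheafOfModules.isQuasicoherent.{u, u, u} (X.ringCatSheaf.over (U x))).prop_of_iso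
      (overIsoUnit L (U x) (e x).some).symm
      (isQuasicoherent_unit.{u, u, u} (R := X.ringCatSheaf.over (U x)))
  refine SheafOfModules.IsQuasicoherent.of_coversTop L U ?_
  rw [Opens.coversTop_iff]
  exact top_le_iff.mp fun x _ => Opens.mem_iSup.mpr ⟨x, hxU x⟩

end Fermat.Agent.S25.SLib.AffineInv
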