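/-
S25 support (helper9105), package SM2 item "affine pullback of tilde": for a ring map
`φ : R ⟶ S`, `(Spec φ)^* M^~ ≅ (S ⊗[R] M)^~` naturally in `M` (uniqueness of left adjoints:
`tilde ⊣ Γ`, `pullback ⊣ pushforward`, `extendScalars ⊣ restrictScalars`, and
`Γ ∘ (Spec φ)_* = restrictScalars ∘ Γ`).  Mathlib-only.
-/
import Mathlib

set_option autoImplicit false

universe u

namespace Fermat.Agent.S25.SLib.AffineInv

open CategoryTheory CategoryTheory.Limits AlgebraicGeometry TopologicalSpace Opposite

variable {R S : CommRingCat.{u}} (φ : R ⟶ S)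

/-- Global sections of a pushforward along `Spec φ`: restriction of scalars. -/
noncomputable def pushforwardΓIso :
    Scheme.Modules.pushforward (Spec.map φ) ⋙ moduleSpecΓFunctor (R := R) ≅
      moduleSpecΓFunctor (R := S) ⋙ ModuleCat.restrictScalars φ.hom :=
  Functor.isoWhiskerRight (pushforwardCompModulesSpecToSheafIso φ)
    (TopCat.Sheaf.forget _ _ ⋙ (evaluation _ _).obj (.op ⊤)) ≪≫ Iso.refl _

/-- **Affine pullback of `tilde`**: `(Spec φ)^* M^~ ≅ (S ⊗[R] M)^~`, naturally in `M`
(uniqueness of left adjoints). -/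
noncomputable def tildePullbackIso :
    tilde.functor R ⋙ Scheme.Modules.pullback (Spec.map φ) ≅
      ModuleCat.extendScalars φ.hom ⋙ tilde.functor S :=
  Adjunction.leftAdjointUniq
    ((tilde.adjunction (R := R)).comp (Scheme.Modules.pullbackPushforwardAdjunction (Spec.map φ)))
    (((ModuleCat.extendRestrictScalarsAdj φ.hom).comp (tilde.adjunction (R := S))).ofNatIsoRight
      (pushforwardΓIso φ).symm)

/-- Object version. -/
noncomputable def tildePullbackObjIso (M : ModuleCat.{u} R) :
    (Scheme.Modules.pullback (Spec.map φ)).obj (tilde M) ≅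
      tilde ((ModuleCat.extendScalars φ.hom).obj M) :=
  (tildePullbackIso φ).app M

end Fermat.Agent.S25.SLib.AffineInv
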