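/-
S25 support (helper9105), package SM2 item "invertible module => invertible sheaf":
`Module.Invertible R M → Scheme.Modules.IsInvertible (tilde M)` (Prelude notion), with the
algebra behind it (`exists_dual_apply_notMem`, `nonempty_baseChange_linearEquiv`,
`nonempty_extendScalars_iso`) and `pullbackTildeIsoUnit`.
-/
import Mathlib
import Fermat.Prelude.Def_AlgebraicGeometry_RelativePicardFunctor
import Fermat.Agent.S25.SLib.AffineInv.TildePullback

set_option autoImplicit false

universe u

namespace Fermat.Agent.S25.SLib.AffineInv

open CategoryTheory CategoryTheory.Limits AlgebraicGeometry TopologicalSpace Opposite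
open scoped TensorProduct

section Algebra

variable {R : Type u} [CommRing R] (M : Type u) [AddCommGroup M] [Module R M]

/-- For an invertible module and a prime `p`, some evaluation `φ m` lies outside `p`. -/
theorem exists_dual_apply_notMem [Module.Invertible R M] (p : Ideal R) (hp : p ≠ ⊤) :
    ∃ (φ : Module.Dual R M) (m : M), φ m ∉ p := by
  by_contra hcon
  push Not at hcon
  have key : ∀ t : Module.Dual R M ⊗[R] M, Module.Invertible.linearEquiv R M t ∈ p := by
    intro t
    induction t using TensorProduct.induction_on with
    | zero => simp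
    | tmul φ m => simpa [Module.Invertible.linearEquiv] using hcon φ m
    | add x y hx hy => rw [map_add]; exact p.add_mem hx hy
  apply hp
  rw [Ideal.eq_top_iff_one]
  simpa using key ((Module.Invertible.linearEquiv R M).symm 1)

/-- If `φ m` becomes a unit in `S`, then `S ⊗[R] M` is free of rank one. -/
theorem nonempty_baseChange_linearEquiv [Module.Invertible R M] (S : Type u) [CommRing S]
    [Algebra R S] (φ : Module.Dual R M) (m : M) (h : IsUnit (algebraMap R S (φ m))) :
    Nonempty (S ⊗[R] M ≃ₗ[S] S) := by
  let ψ : S ⊗[R] M →ₗ[S] S :=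
    (TensorProduct.AlgebraTensorModule.rid R S S).toLinearMap ∘ₗ LinearMap.baseChange S φ
  have hψ : ψ (1 ⊗ₜ m) = algebraMap R S (φ m) := by
    simp [ψ, Algebra.algebraMap_eq_smul_one]
  have surj : Function.Surjective ψ := by
    rw [← LinearMap.range_eq_top]
    exact Ideal.eq_top_of_isUnit_mem _ ⟨_, hψ⟩ h
  exact ⟨.ofBijective ψ (Module.Invertible.bijective_of_surjective surj)⟩

end Algebra

section ModuleCat

variable {R S : Type u} [CommRing R] [CommRing S] (f : R →+* S)

set_option backward.isDefEq.respectTransparency false in
/-- `ModuleCat` version: extension of scalars of an invertible module along a ring map making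
some evaluation `φ m` a unit is the free module of rank one. -/
theorem nonempty_extendScalars_iso (M : ModuleCat.{u} R) [Module.Invertible R M]
    (φ : Module.Dual R M) (m : M) (h : IsUnit (f (φ m))) :
    Nonempty ((ModuleCat.extendScalars f).obj M ≅ ModuleCat.of S S) := by
  let _ := f.toAlgebra
  obtain ⟨e⟩ := nonempty_baseChange_linearEquiv (R := R) M S φ m h
  exact ⟨LinearEquiv.toModuleIso (X₁ := (ModuleCat.extendScalars f).obj M)
    (X₂ := ModuleCat.of S S) e⟩

end ModuleCat

section Scheme

variable {R : CommRingCat.{u}}

/-- Pullback of `M^~` along `Spec φ` is trivial as soon as `S ⊗ M` is free of rank one. -/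
noncomputable def pullbackTildeIsoUnit {S : CommRingCat.{u}} (φ : R ⟶ S) (M : ModuleCat.{u} R)
    (e : (ModuleCat.extendScalars φ.hom).obj M ≅ ModuleCat.of S S) :
    (Scheme.Modules.pullback (Spec.map φ)).obj (tilde M) ≅
      SheafOfModules.unit (Spec S).ringCatSheaf :=
  tildePullbackObjIso φ M ≪≫ (tilde.functor S).mapIso e ≪≫ tildeSelf

/-- **SM2 (invertible module ⇒ invertible sheaf)**: if `M` is an invertible `R`-module then
`M^~` is an invertible `𝒪_{Spec R}`-module in the Prelude sense. -/
theorem isInvertible_tilde (M : ModuleCat.{u} R) [Module.Invertible R M] :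
    Scheme.Modules.IsInvertible (tilde M) := by
  refine ⟨fun x => ?_⟩
  obtain ⟨φ, m, hφ⟩ := exists_dual_apply_notMem (R := R) M x.asIdeal x.isPrime.ne_top
  set r : R := φ m with hr
  refine ⟨PrimeSpectrum.basicOpen r, hφ, ?_⟩
  obtain ⟨e⟩ := nonempty_extendScalars_iso (algebraMap R (Localization.Away r)) M φ m
    (IsLocalization.Away.algebraMap_isUnit r)
  let j := Spec.map (CommRingCat.ofHom (algebraMap R (Localization.Away r)))
  have hfac : (basicOpenIsoSpecAway r).hom ≫ j =
      Scheme.Opens.ι (X := Spec R) (PrimeSpectrum.basicOpen r) :=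
    basicOpenIsoSpecAway_hom_SpecMap r
  exact ⟨(Scheme.Modules.pullbackCongr hfac.symm).app (tilde M) ≪≫
    ((Scheme.Modules.pullbackComp _ _).app (tilde M)).symm ≪≫
    (Scheme.Modules.pullback (basicOpenIsoSpecAway r).hom).mapIso
      (pullbackTildeIsoUnit (CommRingCat.ofHom (algebraMap R (Localization.Away r))) M e) ≪≫
    Scheme.Modules.pullbackUnitIso _⟩

end Scheme

end Fermat.Agent.S25.SLib.AffineInv
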