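/-
S25 support (helper9105), package SM2 "affine dictionary" for invertible sheaves
(Prelude notion `Scheme.Modules.IsInvertible`) on `Spec R`:
* `invertible_of_isInvertible_tilde`, `isInvertible_tilde_iff`:
    `IsInvertible (tilde M) ↔ Module.Invertible R M`;
* `exists_invertible_tilde_iso`: every invertible sheaf on `Spec R` is `tilde` of an
  invertible module; `invertible_Γ_of_isInvertible`: its global sections are invertible;
* `tilde_iso_unit_iff`: `tilde M ≅ 𝒪 ↔ M ≅ R`;
* `isInvertible_of_iso`, `pullbackAwayIsoUnit`, `extendScalarsIsoOfPullbackTildeIsoUnit`.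
-/
import Mathlib
import Fermat.Prelude.Def_AlgebraicGeometry_RelativePicardFunctor
import Fermat.Agent.S25.SLib.AffineInv.TildePullback
import Fermat.Agent.S25.SLib.AffineInv.InvertibleQCoh
import Fermat.Agent.S25.SLib.AffineInv.InvertibleLocal
import Fermat.Agent.S25.SLib.AffineInv.TildeInvertible

set_option autoImplicit false

universe u

namespace Fermat.Agent.S25.SLib.AffineInv

open CategoryTheory CategoryTheory.Limits AlgebraicGeometry TopologicalSpace Opposite
open scoped TensorProduct

variable {R : CommRingCat.{u}}

set_option backward.isDefEq.respectTransparency.types false in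
/-- A trivialization of `L` on an open `U ⊇ D(r)` gives a trivialization of the pullback of `L`
to `Spec R[1/r]`. -/
noncomputable def pullbackAwayIsoUnit (L : (Spec R).Modules) (U : (Spec R).Opens) (r : R)
    (hle : (PrimeSpectrum.basicOpen r : (Spec R).Opens) ≤ U)
    (e : (Scheme.Modules.pullback U.ι).obj L ≅ SheafOfModules.unit U.toScheme.ringCatSheaf) :
    (Scheme.Modules.pullback
      (Spec.map (CommRingCat.ofHom (algebraMap R (Localization.Away r))))).obj L ≅
      SheafOfModules.unit (Spec (CommRingCat.of (Localization.Away r))).ringCatSheaf :=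
  have hfac : Spec.map (CommRingCat.ofHom (algebraMap R (Localization.Away r))) =
      ((basicOpenIsoSpecAway r).inv ≫ (Spec R).homOfLE hle) ≫ U.ι := by
    rw [Category.assoc, Scheme.homOfLE_ι, ← basicOpenIsoSpecAway_hom_SpecMap,
      Iso.inv_hom_id_assoc]
  (Scheme.Modules.pullbackCongr hfac).app L ≪≫
    ((Scheme.Modules.pullbackComp _ _).app L).symm ≪≫
    (Scheme.Modules.pullback _).mapIso e ≪≫ Scheme.Modules.pullbackUnitIso _

/-- If the pullback of `M^~` along `Spec φ` is trivial, then `S ⊗ M` is free of rank one. -/
noncomputable def extendScalarsIsoOfPullbackTildeIsoUnit {S : CommRingCat.{u}} (φ : R ⟶ S)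
    (M : ModuleCat.{u} R)
    (e : (Scheme.Modules.pullback (Spec.map φ)).obj (tilde M) ≅
      SheafOfModules.unit (Spec S).ringCatSheaf) :
    (ModuleCat.extendScalars φ.hom).obj M ≅ ModuleCat.of S S :=
  (tilde.fullyFaithfulFunctor (R := S)).preimageIso
    ((tildePullbackObjIso φ M).symm ≪≫ e ≪≫ tildeSelf.symm)

/-- The standard localization is a localization for the algebra structure induced by its
`algebraMap` (used to feed `invertible_of_extendScalars_iso`). -/
theorem isLocalization_away_toAlgebra {A : Type u} [CommRing A] (r : A) :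
    @IsLocalization.Away A _ r (Localization.Away r) _
      (algebraMap A (Localization.Away r)).toAlgebra := by
  have h : IsLocalization.Away r (Localization.Away r) := inferInstance
  rw [IsLocalization.Away, isLocalization_iff_isLocalizationMap] at h ⊢
  exact h

/-- **SM2 (invertible sheaf ⇒ invertible module)**: a tilde sheaf which is invertible in the
Prelude sense comes from an invertible module. -/
theorem invertible_of_isInvertible_tilde (M : ModuleCat.{u} R)
    (hM : Scheme.Modules.IsInvertible (tilde M)) : Module.Invertible R M := by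
  -- the set of `r` over which `M` trivializes
  let s : Set R := {r | Nonempty ((ModuleCat.extendScalars (algebraMap R (Localization.Away r))).obj M ≅
    ModuleCat.of (Localization.Away r) (Localization.Away r))}
  have hs : Ideal.span s = ⊤ := by
    by_contra hne
    obtain ⟨m, hm, hle⟩ := Ideal.exists_le_maximal _ hne
    let x : Spec R := ⟨m, hm.isPrime⟩
    obtain ⟨U, hxU, ⟨e⟩⟩ := hM.1 x
    obtain ⟨_, ⟨r, rfl⟩, hxr, hrU⟩ :=
      Opens.isBasis_iff_nbhd.mp (PrimeSpectrum.isBasis_basic_opens (R := R)) hxU
    have hr : r ∈ s := ⟨extendScalarsIsoOfPullbackTildeIsoUnit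
      (CommRingCat.ofHom (algebraMap R (Localization.Away r))) M
      (pullbackAwayIsoUnit (tilde M) U r hrU e)⟩
    exact hxr (hle (Ideal.subset_span hr))
  exact invertible_of_extendScalars_iso M s hs (Rₚ := fun r => Localization.Away r.1)
    (fun r => algebraMap R (Localization.Away r.1)) (fun r => isLocalization_away_toAlgebra r.1)
    (fun r => r.2)

/-- `Scheme.Modules.IsInvertible` is invariant under isomorphism. -/
theorem isInvertible_of_iso {X : Scheme.{u}} {L L' : X.Modules} (e : L ≅ L')
    (hL : Scheme.Modules.IsInvertible L) : Scheme.Modules.IsInvertible L' :=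
  ⟨fun x => by
    obtain ⟨U, hxU, ⟨eU⟩⟩ := hL.1 x
    exact ⟨U, hxU, ⟨(Scheme.Modules.pullback U.ι).mapIso e.symm ≪≫ eU⟩⟩⟩

/-- **SM2**: on an affine scheme, a sheaf of modules invertible in the Prelude sense is the
tilde of an invertible module (namely of its module of global sections). -/
theorem exists_invertible_tilde_iso (L : (Spec R).Modules)
    (hL : Scheme.Modules.IsInvertible L) :
    ∃ M : ModuleCat.{u} R, Module.Invertible R M ∧ Nonempty (tilde M ≅ L) := by
  have hq : SheafOfModules.IsQuasicoherent.{u, u, u} L := isQuasicoherent_of_isInvertible hL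
  have hiso : IsIso L.fromTildeΓ := inferInstance
  let e : tilde ((modulesSpecToSheaf.obj L).presheaf.obj (.op ⊤)) ≅ L := asIso L.fromTildeΓ
  exact ⟨_, invertible_of_isInvertible_tilde _ (isInvertible_of_iso e.symm hL), ⟨e⟩⟩

/-- Global sections of an invertible sheaf on `Spec R` form an invertible `R`-module. -/
theorem invertible_Γ_of_isInvertible (L : (Spec R).Modules)
    (hL : Scheme.Modules.IsInvertible L) :
    Module.Invertible R ((modulesSpecToSheaf.obj L).presheaf.obj (.op ⊤)) := by
  have hq : SheafOfModules.IsQuasicoherent.{u, u, u} L := isQuasicoherent_of_isInvertible hL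
  have hiso : IsIso L.fromTildeΓ := inferInstance
  exact invertible_of_isInvertible_tilde _ (isInvertible_of_iso (asIso L.fromTildeΓ).symm hL)

/-- **SM2 (invertible ⟷ invertible)** on an affine scheme. -/
theorem isInvertible_tilde_iff (M : ModuleCat.{u} R) :
    Scheme.Modules.IsInvertible (tilde M) ↔ Module.Invertible R M :=
  ⟨invertible_of_isInvertible_tilde M, fun _ => isInvertible_tilde M⟩

/-- **SM2 (unit ⟷ free)**: `M^~` is the structure sheaf iff `M` is free of rank one. -/
theorem tilde_iso_unit_iff (M : ModuleCat.{u} R) :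
    Nonempty (tilde M ≅ SheafOfModules.unit (Spec R).ringCatSheaf) ↔
      Nonempty (M ≅ ModuleCat.of R R) :=
  ⟨fun ⟨e⟩ => ⟨(tilde.fullyFaithfulFunctor (R := R)).preimageIso (e ≪≫ tildeSelf.symm)⟩,
    fun ⟨e⟩ => ⟨(tilde.functor R).mapIso e ≪≫ tildeSelf⟩⟩

end Fermat.Agent.S25.SLib.AffineInv
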